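import Fermat.Agent.H92.MW.BasicInterfaces

/-!
# P-MW, row MW-CI: class invariance of the Theta-height candidate `Q_l`

`ci : BasicStatement 𝒞 → LemmaMStatement 𝒞 → NormStatement 𝒞 → 𝒞.HAddStatement → 𝒞.CIStatement`.
-/

set_option autoImplicit false

noncomputable section

open Module TensorProduct
open scoped nonZeroDivisors

namespace Fermat.Agent.H87.MW

open Fermat.Agent.H92.MW

variable {R : Type} [CommRing R] [Algebra ℚ R] [IsDedekindDomain R] (𝒞 : MWDatum R)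

/-! ### The pole order -/

theorem mem_W_pole (a : R) : a ∈ 𝒞.W (pole 𝒞 a) :=
  Nat.sInf_mem (𝒞.W_exhaust a)

theorem pole_le_iff (a : R) (m : ℕ) : pole 𝒞 a ≤ m ↔ a ∈ 𝒞.W m :=
  ⟨fun h => 𝒞.W_mono h (mem_W_pole 𝒞 a), fun h => Nat.sInf_le h⟩

/-! ### The key fact: `(a I) ∩ W (m + pole a) = a (I ∩ W m)` -/

theorem rrSpace_span_mul (hB : BasicStatement 𝒞) {a : R} (ha : a ≠ 0) (I : Ideal R) (m : ℕ) :
    𝒞.rrSpace (m + pole 𝒞 a) (Ideal.span {a} * I) =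
      (𝒞.rrSpace m I).map (mulMap 𝒞 (pole 𝒞 a) m ⟨a, mem_W_pole 𝒞 a⟩) := by
  obtain ⟨-, -, hpole, -, -, -⟩ := hB
  ext x
  constructor
  · intro hx
    have hx' : (x : R) ∈ Ideal.span {a} * I := hx
    rw [Ideal.mem_span_singleton_mul] at hx'
    obtain ⟨w, hwI, hw⟩ := hx'
    have hwm : w ∈ 𝒞.W m := by
      by_cases hw0 : w = 0
      · rw [hw0]
        exact Submodule.zero_mem _
      · rw [← pole_le_iff]
        have h1 : pole 𝒞 (a * w) ≤ m + pole 𝒞 a := by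
          rw [pole_le_iff, hw]
          exact x.2
        rw [hpole a w ha hw0] at h1
        omega
    refine ⟨⟨w, hwm⟩, hwI, ?_⟩
    apply Subtype.ext
    show w * a = (x : R)
    rw [mul_comm, hw]
  · rintro ⟨w, hw, rfl⟩
    show (w : R) * a ∈ Ideal.span {a} * I
    rw [mul_comm (w : R) a]
    exact Ideal.mul_mem_mul (Ideal.mem_span_singleton_self a) hw

/-! ### The one-ideal estimate -/

theorem abs_le_double_sum (f : ℕ → ℕ → ℝ) {D k d : ℕ} (hk : k ≤ D) (hd : d ≤ D) :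
    f k d ≤ ∑ i ∈ Finset.range (D + 1), ∑ j ∈ Finset.range (D + 1), |f i j| := by
  have h1 : |f k d| ≤ ∑ j ∈ Finset.range (D + 1), |f k j| :=
    Finset.single_le_sum (f := fun j => |f k j|) (fun j _ => abs_nonneg _)
      (Finset.mem_range.mpr (Nat.lt_succ_of_le hd))
  have h2 : (∑ j ∈ Finset.range (D + 1), |f k j|) ≤
      ∑ i ∈ Finset.range (D + 1), ∑ j ∈ Finset.range (D + 1), |f i j| :=
    Finset.single_le_sum (f := fun i => ∑ j ∈ Finset.range (D + 1), |f i j|)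
      (fun _ _ => Finset.sum_nonneg fun j _ => abs_nonneg _)
      (Finset.mem_range.mpr (Nat.lt_succ_of_le hk))
  exact (le_abs_self _).trans (h1.trans h2)

theorem abs_le_single_sum (f : ℕ → ℝ) {D k : ℕ} (hk : k ≤ D) :
    f k ≤ ∑ i ∈ Finset.range (D + 1), |f i| :=
  (le_abs_self _).trans (Finset.single_le_sum (f := fun i => |f i|) (fun _ _ => abs_nonneg _)
    (Finset.mem_range.mpr (Nat.lt_succ_of_le hk)))

/-- `Q_l (a I) = Q_l (I) + O(1)`, uniformly for `pole a ≤ D`, `deg I ≤ D`. -/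
theorem qH_span_mul_sub_le (hB : BasicStatement 𝒞) (hM : LemmaMStatement 𝒞)
    (hN : NormStatement 𝒞) (hA : 𝒞.HAddStatement) (l D : ℕ) (hl : 1 ≤ l)
    (hlg : 𝒞.m₀ + 1 ≤ l + 𝒞.g) :
    ∃ C : ℝ, ∀ (a : R) (I : Ideal R), a ≠ 0 → I ≠ ⊥ → pole 𝒞 a ≤ D → 𝒞.deg I ≤ D →
      |𝒞.qH l (Ideal.span {a} * I) - 𝒞.qH l I| ≤ C := by
  have hB' := hB
  obtain ⟨-, hrr, -, hdegspan, hdegmul, -⟩ := hB'
  choose CM hCM using hM
  choose CN hCN using hN
  obtain ⟨CH, hCH⟩ := hA D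
  have he : (0 : ℝ) < 𝒞.e := by exact_mod_cast 𝒞.e_pos
  refine ⟨(∑ i ∈ Finset.range (D + 1), ∑ j ∈ Finset.range (D + 1),
      |CM i (j + l + 𝒞.g - 1)|) + l * |CH| +
      l * ((∑ i ∈ Finset.range (D + 1), |CN i|) / 𝒞.e), ?_⟩
  intro a I ha hI hk hd
  set k := pole 𝒞 a with hk_def
  set d := 𝒞.deg I with hd_def
  set m := d + l + 𝒞.g - 1 with hm_def
  set a' : 𝒞.W k := ⟨a, mem_W_pole 𝒞 a⟩ with ha'
  have ha'0 : a' ≠ 0 := by
    intro h
    exact ha (congrArg Subtype.val h)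
  have hspan : Ideal.span {a} ≠ ⊥ := by
    rw [Ne, Ideal.span_singleton_eq_bot]
    exact ha
  -- degrees
  have h1 : 𝒞.deg (Ideal.span {a} * I) = k + d := by
    rw [hdegmul _ _ hspan hI, hdegspan a ha]
  have h2 : 𝒞.deg (Ideal.span {a} * I) + l + 𝒞.g - 1 = m + k := by
    rw [h1]
    omega
  -- the Schmidt heights
  have h3 : 𝒞.gH (m + k) (Ideal.span {a} * I) =
      subspaceHeight ((𝒞.rrSpace m I).map (mulMap 𝒞 k m a')) := by
    unfold MWDatum.gH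
    rw [rrSpace_span_mul 𝒞 hB ha I m]
  have h4 : finrank ℚ (𝒞.rrSpace m I) = l := by
    have := hrr I m hI (by omega)
    omega
  have h5 := hCM k m a' (𝒞.rrSpace m I) ha'0
  rw [h4] at h5
  have h6 := hCN k a' ha'0
  have h7 := hCH (Ideal.span {a}) I hspan hI (by rw [hdegspan a ha]; exact hk) hd
  -- assembling
  set h := Height.logHeight (coordVec 𝒞 k a') with hh
  have h8 : |𝒞.hInf (Ideal.span {a}) - h| ≤ CN k / 𝒞.e := by
    have : 𝒞.hInf (Ideal.span {a}) - h = (𝒞.hT (Ideal.span {a}) - 𝒞.e * h) / 𝒞.e := by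
      unfold MWDatum.hInf
      field_simp
    rw [this, abs_div, abs_of_pos he]
    exact div_le_div_of_nonneg_right h6 he.le
  have hl0 : (0 : ℝ) ≤ l := Nat.cast_nonneg l
  have hqa : 𝒞.qH l (Ideal.span {a} * I) =
      𝒞.gH (m + k) (Ideal.span {a} * I) - l * 𝒞.hInf (Ideal.span {a} * I) := by
    unfold MWDatum.qH
    rw [h2]
  have hqI : 𝒞.qH l I = 𝒞.gH m I - l * 𝒞.hInf I := rfl
  have hdecomp : 𝒞.qH l (Ideal.span {a} * I) - 𝒞.qH l I =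
      (subspaceHeight ((𝒞.rrSpace m I).map (mulMap 𝒞 k m a')) - subspaceHeight (𝒞.rrSpace m I)
          - l * h)
        - l * (𝒞.hInf (Ideal.span {a} * I) - 𝒞.hInf (Ideal.span {a}) - 𝒞.hInf I)
        - l * (𝒞.hInf (Ideal.span {a}) - h) := by
    rw [hqa, hqI, h3]
    unfold MWDatum.gH
    ring
  rw [hdecomp]
  have hb1 : CM k m ≤ ∑ i ∈ Finset.range (D + 1), ∑ j ∈ Finset.range (D + 1),
      |CM i (j + l + 𝒞.g - 1)| :=
    abs_le_double_sum (fun i j => CM i (j + l + 𝒞.g - 1)) hk hd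
  have hb2 : CN k ≤ ∑ i ∈ Finset.range (D + 1), |CN i| := abs_le_single_sum CN hk
  calc |(subspaceHeight ((𝒞.rrSpace m I).map (mulMap 𝒞 k m a')) - subspaceHeight (𝒞.rrSpace m I)
          - l * h)
        - l * (𝒞.hInf (Ideal.span {a} * I) - 𝒞.hInf (Ideal.span {a}) - 𝒞.hInf I)
        - l * (𝒞.hInf (Ideal.span {a}) - h)|
      ≤ |subspaceHeight ((𝒞.rrSpace m I).map (mulMap 𝒞 k m a')) - subspaceHeight (𝒞.rrSpace m I)
          - l * h|
        + |l * (𝒞.hInf (Ideal.span {a} * I) - 𝒞.hInf (Ideal.span {a}) - 𝒞.hInf I)|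
        + |l * (𝒞.hInf (Ideal.span {a}) - h)| :=
          (abs_sub _ _).trans (add_le_add_left (abs_sub _ _) _)
    _ ≤ CM k m + l * |CH| + l * (CN k / 𝒞.e) := by
        rw [abs_mul, abs_mul, abs_of_nonneg hl0]
        have := mul_le_mul_of_nonneg_left (h7.trans (le_abs_self CH)) hl0
        have := mul_le_mul_of_nonneg_left h8 hl0
        linarith
    _ ≤ _ := by
        have := mul_le_mul_of_nonneg_left (div_le_div_of_nonneg_right hb2 he.le) hl0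
        linarith

/-! ### Class invariance -/

/-- A nonzero element of `I` of bounded pole order. -/
theorem exists_mem_ne_zero (hB : BasicStatement 𝒞) (I : Ideal R) (hI : I ≠ ⊥) :
    ∃ b : R, b ≠ 0 ∧ b ∈ I ∧ pole 𝒞 b ≤ 𝒞.deg I + 𝒞.m₀ + 𝒞.g := by
  obtain ⟨-, hrr, -, -, -, -⟩ := hB
  set M : ℕ := 𝒞.deg I + 𝒞.m₀ + 𝒞.g with hM
  have h1 := hrr I M hI (by omega)
  have h2 : 0 < finrank ℚ (𝒞.rrSpace M I) := by omega
  have h3 : Nontrivial (𝒞.rrSpace M I) := Module.finrank_pos_iff.mp h2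
  obtain ⟨x, hx⟩ := exists_ne (0 : 𝒞.rrSpace M I)
  have hxI : (x.1 : R) ∈ I := x.2
  have hxW : (x.1 : R) ∈ 𝒞.W M := x.1.2
  refine ⟨(x.1 : R), ?_, hxI, ?_⟩
  · intro h0
    apply hx
    apply Subtype.ext
    apply Subtype.ext
    exact h0
  · rw [pole_le_iff]
    exact hxW

/-- From `[I] = [I']` and a nonzero `b ∈ I`: an `a ≠ 0` with `a I = b I'` and controlled pole. -/
theorem exists_principal_rel (hB : BasicStatement 𝒞) (I I' : Ideal R) (hI : I ≠ ⊥) (hI' : I' ≠ ⊥)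
    (hcl : ClassGroup.mk0 ⟨I, mem_nonZeroDivisors_iff_ne_zero.mpr hI⟩ =
      ClassGroup.mk0 ⟨I', mem_nonZeroDivisors_iff_ne_zero.mpr hI'⟩)
    (b : R) (hb0 : b ≠ 0) (hbI : b ∈ I) :
    ∃ a : R, a ≠ 0 ∧ Ideal.span {a} * I = Ideal.span {b} * I' ∧
      pole 𝒞 a + 𝒞.deg I = pole 𝒞 b + 𝒞.deg I' := by
  obtain ⟨-, -, -, hdegspan, hdegmul, -⟩ := hB
  have hspanb : Ideal.span {b} ≠ ⊥ := by
    rw [Ne, Ideal.span_singleton_eq_bot]
    exact hb0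
  -- `(b) = I * E`
  obtain ⟨E, hE⟩ : I ∣ Ideal.span {b} := by
    rw [Ideal.dvd_iff_le, Ideal.span_singleton_le_iff_mem]
    exact hbI
  have hE0 : E ≠ ⊥ := by
    rintro rfl
    rw [Ideal.mul_bot] at hE
    exact hspanb hE
  have hEI'0 : E * I' ≠ ⊥ := mul_ne_zero hE0 hI'
  -- `E * I'` is principal
  have h1 : ClassGroup.mk0 ⟨I, mem_nonZeroDivisors_iff_ne_zero.mpr hI⟩ *
      ClassGroup.mk0 ⟨E, mem_nonZeroDivisors_iff_ne_zero.mpr hE0⟩ = 1 := by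
    rw [← map_mul, ClassGroup.mk0_eq_one_iff]
    refine ⟨⟨b, ?_⟩⟩
    exact hE.symm
  have h3 : ClassGroup.mk0 ⟨E * I', mem_nonZeroDivisors_iff_ne_zero.mpr hEI'0⟩ = 1 := by
    have h5 : (⟨E * I', mem_nonZeroDivisors_iff_ne_zero.mpr hEI'0⟩ : (Ideal R)⁰) =
        ⟨E, mem_nonZeroDivisors_iff_ne_zero.mpr hE0⟩ *
          ⟨I', mem_nonZeroDivisors_iff_ne_zero.mpr hI'⟩ := rfl
    rw [h5, map_mul, ← hcl, mul_comm]
    exact h1
  have h4 : (E * I').IsPrincipal :=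
    (ClassGroup.mk0_eq_one_iff (mem_nonZeroDivisors_iff_ne_zero.mpr hEI'0)).mp h3
  obtain ⟨a, ha⟩ := h4.principal
  have ha' : E * I' = Ideal.span {a} := ha
  have ha0 : a ≠ 0 := by
    rintro rfl
    apply hEI'0
    rw [ha']
    exact Ideal.span_singleton_eq_bot.mpr rfl
  refine ⟨a, ha0, ?_, ?_⟩
  · rw [← ha', hE, mul_assoc E I' I, mul_comm I' I, ← mul_assoc E I I', mul_comm E I]
  · have e1 : pole 𝒞 a = 𝒞.deg E + 𝒞.deg I' := by
      rw [← hdegspan a ha0, ← ha', hdegmul _ _ hE0 hI']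
    have e2 : pole 𝒞 b = 𝒞.deg I + 𝒞.deg E := by
      rw [← hdegspan b hb0, hE, hdegmul _ _ hI hE0]
    omega

/-- **MW-CI**: class invariance of `Q_l`. -/
theorem ci (hB : BasicStatement 𝒞) (hM : LemmaMStatement 𝒞) (hN : NormStatement 𝒞)
    (hA : 𝒞.HAddStatement) : 𝒞.CIStatement := by
  intro l dmax hl hlg
  obtain ⟨C, hC⟩ := qH_span_mul_sub_le 𝒞 hB hM hN hA l (dmax + 𝒞.m₀ + 𝒞.g + dmax) hl hlg
  refine ⟨C + C, ?_⟩
  rintro ⟨I, hIm⟩ ⟨I', hI'm⟩ hd hd' hcl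
  have hI : I ≠ ⊥ := mem_nonZeroDivisors_iff_ne_zero.mp hIm
  have hI' : I' ≠ ⊥ := mem_nonZeroDivisors_iff_ne_zero.mp hI'm
  change 𝒞.deg I ≤ dmax at hd
  change 𝒞.deg I' ≤ dmax at hd'
  change |𝒞.qH l I - 𝒞.qH l I'| ≤ C + C
  obtain ⟨b, hb0, hbI, hbpole⟩ := exists_mem_ne_zero 𝒞 hB I hI
  obtain ⟨a, ha0, hkey, hpole⟩ := exists_principal_rel 𝒞 hB I I' hI hI' hcl b hb0 hbI
  have hpb : pole 𝒞 b ≤ dmax + 𝒞.m₀ + 𝒞.g + dmax := by omega
  have hpa : pole 𝒞 a ≤ dmax + 𝒞.m₀ + 𝒞.g + dmax := by omega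
  have hdI : 𝒞.deg I ≤ dmax + 𝒞.m₀ + 𝒞.g + dmax := by omega
  have hdI' : 𝒞.deg I' ≤ dmax + 𝒞.m₀ + 𝒞.g + dmax := by omega
  have e1 := hC a I ha0 hI hpa hdI
  have e2 := hC b I' hb0 hI' hpb hdI'
  rw [hkey] at e1
  have e3 : 𝒞.qH l I - 𝒞.qH l I' =
      (𝒞.qH l (Ideal.span {b} * I') - 𝒞.qH l I') -
        (𝒞.qH l (Ideal.span {b} * I') - 𝒞.qH l I) := by ring
  rw [e3]
  exact (abs_sub _ _).trans (add_le_add e2 e1)

end Fermat.Agent.H87.MW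

end
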